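import Fermat.Agent.S23.H41.AutComplex

/-!
# Descent for `Aut(ℂ)`-stable subspaces of `ι → ℂ`

Package P5 of the S23 plan: a subspace of `ι → ℂ` (with `ι` finite) which is stable under the
coordinatewise action of every ring automorphism of `ℂ` is spanned by its rational points.
-/

set_option autoImplicit false

namespace Fermat.Agent.S23.H41

/-- **P5**: an `Aut(ℂ)`-stable subspace of `ι → ℂ` is spanned by its rational points. -/
theorem span_rational_points_eq {ι : Type*} [Finite ι] (W : Submodule ℂ (ι → ℂ))
    (hW : ∀ σ : ℂ ≃+* ℂ, ∀ v ∈ W, (fun i => σ (v i)) ∈ W) :
    Submodule.span ℂ {v : ι → ℂ | v ∈ W ∧ ∀ i, ∃ q : ℚ, (q : ℂ) = v i} = W := by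
  classical
  cases nonempty_fintype ι
  set W' := Submodule.span ℂ {v : ι → ℂ | v ∈ W ∧ ∀ i, ∃ q : ℚ, (q : ℂ) = v i} with hW'
  apply le_antisymm
  · exact Submodule.span_le.2 (fun v hv => hv.1)
  · have key : ∀ n : ℕ, ∀ v ∈ W,
        (Finset.univ.filter (fun i => v i ≠ 0)).card ≤ n → v ∈ W' := by
      intro n
      induction n with
      | zero =>
        intro v hv hcard
        have : v = 0 := by
          funext i
          by_contra hi
          have hmem : i ∈ Finset.univ.filter (fun i => v i ≠ 0) := by simpa using hi
          have := Finset.card_pos.2 ⟨i, hmem⟩
          omega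
        rw [this]; exact W'.zero_mem
      | succ n ih =>
        intro v hv hcard
        by_cases hv0 : v = 0
        · rw [hv0]; exact W'.zero_mem
        obtain ⟨i0, hi0⟩ : ∃ i, v i ≠ 0 := by
          by_contra h; push Not at h; exact hv0 (funext h)
        by_cases hcase : ∃ u ∈ W, u ≠ 0 ∧ (∀ i, u i ≠ 0 → v i ≠ 0) ∧ ∃ j, v j ≠ 0 ∧ u j = 0
        · obtain ⟨u, huW, hu0, hsub, j, hvj, huj⟩ := hcase
          have hu' : u ∈ W' := by
            apply ih u huW
            have hlt : (Finset.univ.filter (fun i => u i ≠ 0)).card <
                (Finset.univ.filter (fun i => v i ≠ 0)).card := by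
              apply Finset.card_lt_card
              rw [Finset.ssubset_iff_of_subset]
              · exact ⟨j, by simpa using hvj, by simpa using huj⟩
              · intro i hi
                simp only [Finset.mem_filter, Finset.mem_univ, true_and] at hi ⊢
                exact hsub i hi
            omega
          obtain ⟨i1, hi1⟩ : ∃ i, u i ≠ 0 := by
            by_contra h; push Not at h; exact hu0 (funext h)
          set c := v i1 / u i1 with hc
          have hv' : v - c • u ∈ W' := by
            apply ih _ (W.sub_mem hv (W.smul_mem c huW))
            have hlt : (Finset.univ.filter (fun i => (v - c • u) i ≠ 0)).card <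
                (Finset.univ.filter (fun i => v i ≠ 0)).card := by
              apply Finset.card_lt_card
              rw [Finset.ssubset_iff_of_subset]
              · refine ⟨i1, by simpa using hsub i1 hi1, ?_⟩
                simp [hc, hi1]
              · intro i hi
                simp only [Finset.mem_filter, Finset.mem_univ, true_and] at hi ⊢
                intro hvi
                apply hi
                have hui : u i = 0 := by
                  by_contra hui
                  exact (hsub i hui) hvi
                simp [hvi, hui]
            omega
          have : v = (v - c • u) + c • u := by abel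
          rw [this]
          exact W'.add_mem hv' (W'.smul_mem c hu')
        · push Not at hcase
          set w := (v i0)⁻¹ • v with hw
          have hwW : w ∈ W := W.smul_mem _ hv
          have hwi0 : w i0 = 1 := by simp [hw, hi0]
          have hfix : ∀ σ : ℂ ≃+* ℂ, (fun i => σ (w i)) = w := by
            intro σ
            by_contra hne
            have huW : (fun i => σ (w i)) - w ∈ W := W.sub_mem (hW σ w hwW) hwW
            have hu0 : (fun i => σ (w i)) - w ≠ 0 := sub_ne_zero.2 hne
            have hsub : ∀ i, ((fun i => σ (w i)) - w) i ≠ 0 → v i ≠ 0 := by
              intro i hi hvi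
              apply hi
              simp [hw, hvi]
            have := hcase _ huW hu0 hsub i0 hi0
            apply this
            simp [hwi0]
          have hrat : ∀ i, ∃ q : ℚ, (q : ℂ) = w i := by
            intro i
            apply exists_ratCast_eq_of_forall_ringEquiv_fixed
            intro σ
            exact congrFun (hfix σ) i
          have hw' : w ∈ W' := Submodule.subset_span ⟨hwW, hrat⟩
          have : v = (v i0) • w := by
            rw [hw, smul_smul, mul_inv_cancel₀ hi0, one_smul]
          rw [this]
          exact W'.smul_mem _ hw'
    intro v hv
    exact key _ v hv le_rfl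

end Fermat.Agent.S23.H41
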