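import Mathlib.FieldTheory.IsAlgClosed.Classification
import Mathlib.FieldTheory.AlgebraicClosure
import Mathlib.FieldTheory.Galois.Infinite
import Mathlib.RingTheory.AlgebraicIndependent.Transcendental
import Mathlib.Analysis.Complex.Polynomial.Basic

/-!
# Elements of `ℂ` fixed by every ring automorphism are rational

Package P4 of the S23 plan: the fixed field of `Aut(ℂ)` is `ℚ`.
-/

set_option autoImplicit false

namespace Fermat.Agent.S23.H41

open MvPolynomial

/-- Any ring automorphism of the polynomial ring on a transcendence basis of `ℂ` over `R`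
extends to a ring automorphism of `ℂ`. -/
theorem exists_ringEquiv_of_mvPolynomial_equiv {R : Type*} [Field R] [Algebra R ℂ]
    {ι : Type*} (v : ι → ℂ) (hv : IsTranscendenceBasis R v)
    (φ : MvPolynomial ι R ≃+* MvPolynomial ι R) :
    ∃ σ : ℂ ≃+* ℂ, ∀ P : MvPolynomial ι R, σ (aeval v P) = aeval v (φ P) := by
  let _ := IsAlgClosed.isAlgClosure_of_transcendence_basis v hv
  let e₀ : MvPolynomial ι R ≃ₐ[R] Algebra.adjoin R (Set.range v) := hv.1.aevalEquiv
  let e : Algebra.adjoin R (Set.range v) ≃+* Algebra.adjoin R (Set.range v) :=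
    e₀.symm.toRingEquiv.trans (φ.trans e₀.toRingEquiv)
  refine ⟨IsAlgClosure.equivOfEquiv ℂ ℂ e, fun P => ?_⟩
  have h1 : aeval v P = algebraMap (Algebra.adjoin R (Set.range v)) ℂ (e₀ P) :=
    (hv.1.algebraMap_aevalEquiv P).symm
  have h2 : aeval v (φ P) = algebraMap (Algebra.adjoin R (Set.range v)) ℂ (e₀ (φ P)) :=
    (hv.1.algebraMap_aevalEquiv (φ P)).symm
  rw [h1, h2, IsAlgClosure.equivOfEquiv_algebraMap]
  congr 1
  simp [e]

/-- Any ring automorphism of a field `L` mapping to `ℂ` extends to a ring automorphism of `ℂ`. -/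
theorem exists_ringEquiv_extending {L : Type} [Field L] [Algebra L ℂ] (τ : L ≃+* L) :
    ∃ σ : ℂ ≃+* ℂ, ∀ l : L, σ (algebraMap L ℂ l) = algebraMap L ℂ (τ l) := by
  obtain ⟨ι, v, hv⟩ := exists_isTranscendenceBasis' L ℂ
  obtain ⟨σ, hσ⟩ := exists_ringEquiv_of_mvPolynomial_equiv v hv (MvPolynomial.mapEquiv ι τ)
  refine ⟨σ, fun l => ?_⟩
  have := hσ (C l)
  simpa using this

/-- A transcendental complex number is moved by some ring automorphism of `ℂ`. -/
theorem exists_ringEquiv_ne_of_transcendental {x : ℂ} (hx : Transcendental ℚ x) :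
    ∃ σ : ℂ ≃+* ℂ, σ x ≠ x := by
  classical
  have hs : AlgebraicIndepOn ℚ id ({x} : Set ℂ) := by
    have : AlgebraicIndependent ℚ (fun i : ({x} : Set ℂ) => (i : ℂ)) := by
      rw [algebraicIndependent_singleton_iff ⟨x, rfl⟩]
      exact hx
    exact this
  obtain ⟨t, hxt, ht⟩ := exists_isTranscendenceBasis_superset hs
  have hxmem : x ∈ t := hxt rfl
  let i₀ : t := ⟨x, hxmem⟩
  let f : MvPolynomial t ℚ →ₐ[ℚ] MvPolynomial t ℚ :=
    aeval (fun i => if i = i₀ then -X i else X i)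
  have hff : f.comp f = AlgHom.id ℚ _ := by
    apply MvPolynomial.algHom_ext
    intro i
    by_cases hi : i = i₀
    · simp [f, hi]
    · simp [f, hi]
  let φ : MvPolynomial t ℚ ≃ₐ[ℚ] MvPolynomial t ℚ := AlgEquiv.ofAlgHom f f hff hff
  obtain ⟨σ, hσ⟩ := exists_ringEquiv_of_mvPolynomial_equiv _ ht φ.toRingEquiv
  refine ⟨σ, ?_⟩
  have h := hσ (X i₀)
  have hφ : φ.toRingEquiv (X i₀) = -X i₀ := by
    change f (X i₀) = _
    simp [f]
  rw [hφ] at h
  simp only [aeval_X, map_neg] at h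
  have hx0 : x ≠ 0 := by
    rintro rfl
    exact hx isAlgebraic_zero
  change σ x = -x at h
  rw [h]
  intro hneg
  apply hx0
  have : (2 : ℂ) * x = 0 := by linear_combination -hneg
  simpa using this

/-- An algebraic irrational complex number is moved by some ring automorphism of `ℂ`. -/
theorem exists_ringEquiv_ne_of_isAlgebraic {x : ℂ} (hx : IsAlgebraic ℚ x)
    (hq : ∀ q : ℚ, (q : ℂ) ≠ x) : ∃ σ : ℂ ≃+* ℂ, σ x ≠ x := by
  let L := algebraicClosure ℚ ℂ
  have hxL : x ∈ L := (mem_algebraicClosure_iff).2 hx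
  let x' : L := ⟨x, hxL⟩
  have hnot : x' ∉ Set.range (algebraMap ℚ L) := by
    rintro ⟨q, hq'⟩
    apply hq q
    have := congrArg (fun y : L => (y : ℂ)) hq'
    simpa [x'] using this
  have : IsAlgClosure ℚ L := algebraicClosure.isAlgClosure ℚ ℂ
  have : IsGalois ℚ L := IsAlgClosure.isGalois ℚ L
  rw [InfiniteGalois.mem_range_algebraMap_iff_fixed] at hnot
  push Not at hnot
  obtain ⟨τ, hτ⟩ := hnot
  obtain ⟨σ, hσ⟩ := exists_ringEquiv_extending (L := L) τ.toRingEquiv
  refine ⟨σ, ?_⟩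
  have h := hσ x'
  change σ x = ((τ x' : L) : ℂ) at h
  rw [h]
  intro heq
  apply hτ
  exact Subtype.ext heq

/-- **P4**: a complex number fixed by every ring automorphism of `ℂ` is rational. -/
theorem exists_ratCast_eq_of_forall_ringEquiv_fixed (x : ℂ) (h : ∀ σ : ℂ ≃+* ℂ, σ x = x) :
    ∃ q : ℚ, (q : ℂ) = x := by
  by_contra hq
  push Not at hq
  by_cases hx : IsAlgebraic ℚ x
  · obtain ⟨σ, hσ⟩ := exists_ringEquiv_ne_of_isAlgebraic hx hq
    exact hσ (h σ)
  · obtain ⟨σ, hσ⟩ := exists_ringEquiv_ne_of_transcendental hx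
    exact hσ (h σ)

end Fermat.Agent.S23.H41
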